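import Mathlib
import Fermat.Agent.CFT.CupLowLevel

/-!
# TW / LocQ (1): the "unramified" `1`-cocycles attached to a cyclic quotient

`G` a group, `U` a normal subgroup, `φ : G` an element whose powers meet every coset of `U`
(`hgen`), `Y : Rep k G`.  With `pSum Y φ j y = y + φ y + ⋯ + φ^(j-1) y`, assume (`hvan`) that
`pSum Y φ m` vanishes identically as soon as `φ ^ m ∈ U`.  Then for every `U`-fixed `a : Y` the
function `unrCoc a : g ↦ pSum Y φ j a` (`g ∈ φ^j U`) is a well-defined `1`-cocycle, right invariant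
under `U`, with `U`-fixed values, additive in `a`, and it is a coboundary iff `a ∈ (φ - 1) Y^U`.

No topology, no finiteness: this is the algebra behind `H¹_ur(Y) ≅ Y^I / (Frob - 1)`.
-/

set_option autoImplicit false
set_option linter.unusedSectionVars false

universe u

open CategoryTheory groupCohomology

namespace Fermat.Agent.TW.LocQ

open Fermat.Agent.CFT Fermat.Agent.CFT.Cup

variable {k G : Type u} [CommRing k] [Group G] (Y : Rep.{u} k G)

/-- The partial norm `y + φ y + ⋯ + φ^(j-1) y`. -/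
def pSum (φ : G) (j : ℕ) (y : Y) : Y := ∑ i ∈ Finset.range j, Y.ρ (φ ^ i) y

variable {Y}

@[simp] lemma pSum_zero (φ : G) (y : Y) : pSum Y φ 0 y = 0 := by
  simp [pSum]

lemma pSum_succ (φ : G) (j : ℕ) (y : Y) : pSum Y φ (j + 1) y = pSum Y φ j y + Y.ρ (φ ^ j) y := by
  simp [pSum, Finset.sum_range_succ]

@[simp] lemma pSum_one (φ : G) (y : Y) : pSum Y φ 1 y = y := by
  simp [pSum]

lemma pSum_add_index (φ : G) (j i : ℕ) (y : Y) :
    pSum Y φ (j + i) y = pSum Y φ j y + Y.ρ (φ ^ j) (pSum Y φ i y) := by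
  induction i with
  | zero => simp
  | succ i ih =>
    rw [← add_assoc, pSum_succ, ih, pSum_succ, map_add, add_assoc, pow_add, map_mul,
      Module.End.mul_apply]

lemma pSum_map_add (φ : G) (j : ℕ) (y y' : Y) :
    pSum Y φ j (y + y') = pSum Y φ j y + pSum Y φ j y' := by
  simp [pSum, map_add, Finset.sum_add_distrib]

lemma pSum_map_zero (φ : G) (j : ℕ) : pSum Y φ j (0 : Y) = 0 := by
  simp [pSum]

lemma pSum_map_smul (φ : G) (j : ℕ) (c : k) (y : Y) :
    pSum Y φ j (c • y) = c • pSum Y φ j y := by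
  simp [pSum, map_smul, Finset.smul_sum]

/-- Telescoping: `pSum j (φ y - y) = φ^j y - y`. -/
lemma pSum_sub (φ : G) (j : ℕ) (y : Y) :
    pSum Y φ j (Y.ρ φ y - y) = Y.ρ (φ ^ j) y - y := by
  induction j with
  | zero => simp
  | succ j ih =>
    rw [pSum_succ, ih, map_sub, ← Module.End.mul_apply, ← map_mul, ← pow_succ]
    abel

/-- If `φ ^ d` acts trivially then `pSum (d * s) = s • pSum d`. -/
lemma pSum_mul (φ : G) (d : ℕ) (hd : ∀ y : Y, Y.ρ (φ ^ d) y = y) (s : ℕ) (y : Y) :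
    pSum Y φ (d * s) y = s • pSum Y φ d y := by
  induction s with
  | zero => simp
  | succ s ih =>
    have hds : ∀ z : Y, Y.ρ (φ ^ (d * s)) z = z := by
      intro z
      rw [pow_mul]
      clear ih
      induction s with
      | zero => simp
      | succ s ih2 => rw [pow_succ, map_mul, Module.End.mul_apply, hd, ih2]
    rw [Nat.mul_succ, pSum_add_index, ih, hds, succ_nsmul]

/-- The vanishing criterion: if `p` kills `Y`, `φ ^ d` acts trivially and `p * d ∣ m`, then
`pSum m = 0`. -/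
lemma pSum_eq_zero_of_dvd (φ : G) {p d m : ℕ} (hp : ∀ y : Y, p • y = 0)
    (hd : ∀ y : Y, Y.ρ (φ ^ d) y = y) (h : p * d ∣ m) (y : Y) : pSum Y φ m y = 0 := by
  obtain ⟨t, rfl⟩ := h
  rw [show p * d * t = d * (t * p) by ring, pSum_mul φ d hd, mul_nsmul, hp]

lemma fixedBy_pSum {U : Subgroup G} [U.Normal] (φ : G) (j : ℕ) {a : Y} (ha : FixedBy Y U a) :
    FixedBy Y U (pSum Y φ j a) := by
  induction j with
  | zero =>
    intro s _
    simp
  | succ j ih =>
    rw [pSum_succ]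
    exact ih.add (ha.ρ _)

section coc

variable {U : Subgroup G} [U.Normal] {φ : G}
  (hgen : ∀ g : G, ∃ j : ℕ, (φ ^ j)⁻¹ * g ∈ U)
  (hvan : ∀ m : ℕ, φ ^ m ∈ U → ∀ y : Y, pSum Y φ m y = 0)

/-- A chosen exponent `j` with `g ∈ φ ^ j U`. -/
noncomputable def expOf (g : G) : ℕ := (hgen g).choose

lemma expOf_spec (g : G) : (φ ^ expOf hgen g)⁻¹ * g ∈ U := (hgen g).choose_spec

/-- The cocycle `g ↦ a + φ a + ⋯ + φ^(j-1) a` for `g ∈ φ^j U`. -/
noncomputable def unrCoc (a : Y) : G → Y := fun g => pSum Y φ (expOf hgen g) a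

include hvan in
lemma pSum_eq_of_mem {j j' : ℕ} (h : (φ ^ j)⁻¹ * φ ^ j' ∈ U) (a : Y) :
    pSum Y φ j a = pSum Y φ j' a := by
  rcases le_total j j' with hle | hle
  · obtain ⟨m, rfl⟩ := Nat.exists_eq_add_of_le hle
    rw [pow_add, inv_mul_cancel_left] at h
    rw [pSum_add_index, hvan m h, map_zero, add_zero]
  · obtain ⟨m, rfl⟩ := Nat.exists_eq_add_of_le hle
    have h' : φ ^ m ∈ U := by
      have := U.inv_mem h
      rwa [mul_inv_rev, inv_inv, pow_add, inv_mul_cancel_left] at this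
    rw [pSum_add_index, hvan m h', map_zero, add_zero]

include hvan in
/-- `unrCoc a g` can be computed with any exponent `j` such that `g ∈ φ^j U`. -/
lemma unrCoc_eq (a : Y) {g : G} {j : ℕ} (hj : (φ ^ j)⁻¹ * g ∈ U) :
    unrCoc hgen a g = pSum Y φ j a := by
  refine pSum_eq_of_mem hvan ?_ a
  have h1 := expOf_spec hgen g
  have h2 : (φ ^ expOf hgen g)⁻¹ * φ ^ j = (φ ^ expOf hgen g)⁻¹ * g * ((φ ^ j)⁻¹ * g)⁻¹ := by group
  rw [h2]
  exact U.mul_mem h1 (U.inv_mem hj)

include hvan in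
lemma unrCoc_pow (a : Y) (j : ℕ) : unrCoc hgen a (φ ^ j) = pSum Y φ j a :=
  unrCoc_eq hgen hvan a (by rw [inv_mul_cancel]; exact U.one_mem)

include hvan in
lemma unrCoc_self (a : Y) : unrCoc hgen a φ = a := by
  have := unrCoc_pow hgen hvan a 1
  rwa [pow_one, pSum_one] at this

include hvan in
lemma unrCoc_of_mem (a : Y) {u : G} (hu : u ∈ U) : unrCoc hgen a u = 0 := by
  have := unrCoc_eq hgen hvan a (g := u) (j := 0) (by simpa using hu)
  rwa [pSum_zero] at this

include hvan in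
lemma rightInv_unrCoc (a : Y) : RightInv₁ U (unrCoc hgen a) := by
  intro g s hs
  have h1 := expOf_spec hgen g
  rw [unrCoc_eq hgen hvan a (g := g * s) (j := expOf hgen g)
    (by rw [← mul_assoc]; exact U.mul_mem h1 hs)]
  rfl

lemma fixedBy_unrCoc {a : Y} (ha : FixedBy Y U a) (g : G) : FixedBy Y U (unrCoc hgen a g) :=
  fixedBy_pSum φ _ ha

include hvan in
/-- `unrCoc a` is a `1`-cocycle when `a` is fixed by `U`. -/
lemma unrCoc_mem_cocycles₁ {a : Y} (ha : FixedBy Y U a) : unrCoc hgen a ∈ cocycles₁ Y := by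
  rw [mem_cocycles₁_iff]
  intro g h
  have hg := expOf_spec hgen g
  have hh := expOf_spec hgen h
  set j := expOf hgen g with hj
  set i := expOf hgen h with hi
  -- `g * h ∈ φ ^ (j + i) U`
  have hgh : (φ ^ (j + i))⁻¹ * (g * h) ∈ U := by
    have h1 : (φ ^ (j + i))⁻¹ * (g * h) =
        ((φ ^ i)⁻¹ * ((φ ^ j)⁻¹ * g) * (φ ^ i)) * ((φ ^ i)⁻¹ * h) := by
      rw [pow_add]; group
    rw [h1]
    refine U.mul_mem ?_ hh
    have := (inferInstance : U.Normal).conj_mem _ hg (φ ^ i)⁻¹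
    simpa [mul_assoc] using this
  rw [unrCoc_eq hgen hvan a hgh, pSum_add_index]
  have h2 : Y.ρ g (unrCoc hgen a h) = Y.ρ (φ ^ j) (pSum Y φ i a) := by
    have h3 : g = φ ^ j * ((φ ^ j)⁻¹ * g) := by group
    change Y.ρ g (pSum Y φ i a) = _
    conv_lhs => rw [h3]
    rw [map_mul, Module.End.mul_apply, fixedBy_pSum φ i ha _ hg]
  rw [h2, add_comm]
  rfl

lemma unrCoc_add (a b : Y) : unrCoc hgen (a + b) = unrCoc hgen a + unrCoc hgen b := by
  funext g
  exact pSum_map_add φ _ a b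

lemma unrCoc_zero : unrCoc hgen (0 : Y) = 0 := by
  funext g
  exact pSum_map_zero φ _

lemma unrCoc_smul (c : k) (a : Y) : unrCoc hgen (c • a) = c • unrCoc hgen a := by
  funext g
  exact pSum_map_smul φ _ c a

include hvan in
/-- `unrCoc a` is the coboundary of `y` iff `y` is `U`-fixed and `a = φ y - y`. -/
lemma unrCoc_eq_d₀₁_iff (a y : Y) :
    unrCoc hgen a = (d₀₁ Y).hom y ↔ FixedBy Y U y ∧ a = Y.ρ φ y - y := by
  constructor
  · intro h
    refine ⟨fun u hu => ?_, ?_⟩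
    · have h1 := congrFun h u
      rw [unrCoc_of_mem hgen hvan a hu, d₀₁_hom_apply] at h1
      exact (sub_eq_zero.mp h1.symm)
    · have h1 := congrFun h φ
      rwa [unrCoc_self hgen hvan, d₀₁_hom_apply] at h1
  · rintro ⟨hy, rfl⟩
    funext g
    have hg := expOf_spec hgen g
    change pSum Y φ (expOf hgen g) _ = _
    rw [pSum_sub, d₀₁_hom_apply]
    have h3 : g = φ ^ expOf hgen g * ((φ ^ expOf hgen g)⁻¹ * g) := by group
    conv_rhs => rw [h3]
    rw [map_mul, Module.End.mul_apply, hy _ hg]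

include hgen in
/-- An element fixed by `U` and by `φ` is `G`-invariant. -/
lemma mem_invariants_of_fixedBy {y : Y} (hy : FixedBy Y U y) (hφ : Y.ρ φ y = y) :
    y ∈ Y.ρ.invariants := by
  intro g
  obtain ⟨j, hj⟩ := hgen g
  have h3 : g = φ ^ j * ((φ ^ j)⁻¹ * g) := by group
  rw [h3, map_mul, Module.End.mul_apply, hy _ hj]
  clear h3 hj
  induction j with
  | zero => simp
  | succ j ih => rw [pow_succ, map_mul, Module.End.mul_apply, hφ, ih]

end coc

end Fermat.Agent.TW.LocQ
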