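import Mathlib
import Fermat.Agent.CFT.LC.LowDegree
import Fermat.Agent.CFT.HyperExt.Pairing
import Fermat.Agent.TW.LocQ.CyclicCocycle

/-!
# TW / LocQ (3): the subgroup of unramified classes in level cohomology and its cardinality

In the situation of `CyclicCocycle.lean` with a level structure `L` on `G` for which `U` is open and
a smooth module `Y`: the cocycles `unrCoc a` (`a ∈ Y^U`) define a linear map
`unrH : Y^U → H¹(G, Y)` (level cohomology `(LC.cx hY).H 1`) with kernel `(φ - 1) Y^U`.  For finite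
`Y` its image has as many elements as `Y^G`, i.e. as `H⁰(G, Y)`.
-/

set_option autoImplicit false
set_option linter.unusedSectionVars false

universe u

open CategoryTheory groupCohomology

namespace Fermat.Agent.TW.LocQ

open Fermat.Agent.CFT Fermat.Agent.CFT.Cup Fermat.Agent.CFT.HExt

/-- A counting lemma: if `ker ψ = range D` for an endomorphism `D` of a finite abelian group, then
the image of `ψ` has as many elements as the kernel of `D`. -/
lemma card_range_eq_card_ker {A H : Type*} [AddCommGroup A] [Finite A] [AddCommGroup H]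
    (ψ : A →+ H) (D : A →+ A) (h : ψ.ker = D.range) : Nat.card ψ.range = Nat.card D.ker := by
  have h1 : Nat.card A = Nat.card ψ.ker * Nat.card ψ.range := by
    rw [AddSubgroup.card_eq_card_quotient_mul_card_addSubgroup ψ.ker,
      Nat.card_congr (QuotientAddGroup.quotientKerEquivRange ψ).toEquiv, mul_comm]
  have h2 : Nat.card A = Nat.card D.ker * Nat.card D.range := by
    rw [AddSubgroup.card_eq_card_quotient_mul_card_addSubgroup D.ker,
      Nat.card_congr (QuotientAddGroup.quotientKerEquivRange D).toEquiv, mul_comm]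
  rw [h] at h1
  have hpos : 0 < Nat.card D.range := Nat.card_pos
  have := h1.symm.trans h2
  rw [mul_comm] at this
  exact Nat.eq_of_mul_eq_mul_right hpos this

variable {k G : Type u} [CommRing k] [Group G] {L : LevelStructure G} {Y : Rep.{u} k G}

/-- The submodule of `U`-fixed vectors. -/
def fixedSub (Y : Rep.{u} k G) (U : Subgroup G) : Submodule k Y where
  carrier := {a | FixedBy Y U a}
  add_mem' ha hb := ha.add hb
  zero_mem' := fun s _ => map_zero _
  smul_mem' c a ha := fun s hs => by rw [map_smul, ha s hs]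

lemma mem_fixedSub {U : Subgroup G} {a : Y} : a ∈ fixedSub Y U ↔ FixedBy Y U a := Iff.rfl

section

variable (hY : IsSmooth L Y) {U : Subgroup G} [U.Normal] (hU : L.IsOpen U) {φ : G}
  (hgen : ∀ g : G, ∃ j : ℕ, (φ ^ j)⁻¹ * g ∈ U)
  (hvan : ∀ m : ℕ, φ ^ m ∈ U → ∀ y : Y, pSum Y φ m y = 0)

include hU hvan in
lemma isLC₁_unrCoc (a : Y) : L.IsLC₁ (unrCoc hgen a) := by
  obtain ⟨N, hN, hNU⟩ := hU
  exact ⟨N, hN, fun g s hs => rightInv_unrCoc hgen hvan a g s (hNU hs)⟩

/-- `a ↦ unrCoc a` as a linear map into the LC `1`-cochains. -/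
noncomputable def unrC₁ : fixedSub Y U →ₗ[k] ↥(LC.C₁ L Y) where
  toFun a := ⟨unrCoc hgen (a : Y), isLC₁_unrCoc hU hgen hvan a⟩
  map_add' a b := Subtype.ext (unrCoc_add hgen (a : Y) (b : Y))
  map_smul' c a := Subtype.ext (unrCoc_smul hgen c (a : Y))

@[simp] lemma coe_unrC₁ (a : fixedSub Y U) :
    (unrC₁ hU hgen hvan a : G → Y) = unrCoc hgen (a : Y) := rfl

lemma d_unrC₁ (a : fixedSub Y U) : (LC.cx hY).d 1 (unrC₁ hU hgen hvan a) = 0 :=
  (LC.dLC₁_eq_zero_iff hY (unrC₁ hU hgen hvan a)).2 (unrCoc_mem_cocycles₁ hgen hvan a.2)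

/-- The unramified classes: `Y^U → H¹(G, Y)`. -/
noncomputable def unrH : fixedSub Y U →ₗ[k] (LC.cx hY).H 1 :=
  (Cx.H.mkL (C := LC.cx hY) (n := 1)).comp
    ((unrC₁ hU hgen hvan).codRestrict ((LC.cx hY).Zc 1)
      (fun a => ((LC.cx hY).mem_Zc_iff 1 _).2 (d_unrC₁ hY hU hgen hvan a)))

lemma unrH_apply (a : fixedSub Y U) :
    unrH hY hU hgen hvan a =
      Cx.H.mk (C := LC.cx hY) (n := 1) (unrC₁ hU hgen hvan a) (d_unrC₁ hY hU hgen hvan a) := rfl

/-- `φ - 1` on `Y^U`. -/
def frobSubOne (φ : G) : fixedSub Y U →ₗ[k] fixedSub Y U where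
  toFun a := ⟨Y.ρ φ (a : Y) - a, (FixedBy.ρ a.2 φ).sub a.2⟩
  map_add' a b := Subtype.ext (by
    change Y.ρ φ ((a : Y) + b) - ((a : Y) + b) = (Y.ρ φ a - a) + (Y.ρ φ b - b)
    rw [map_add]; abel)
  map_smul' c a := Subtype.ext (by
    change Y.ρ φ (c • (a : Y)) - c • (a : Y) = c • (Y.ρ φ a - a)
    rw [map_smul, smul_sub])

@[simp] lemma coe_frobSubOne (a : fixedSub Y U) :
    ((frobSubOne (U := U) φ a : fixedSub Y U) : Y) = Y.ρ φ (a : Y) - a := rfl

/-- The kernel of `unrH` is `(φ - 1) Y^U`. -/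
lemma ker_unrH : LinearMap.ker (unrH hY hU hgen hvan) = LinearMap.range (frobSubOne (U := U) φ) := by
  ext a
  rw [LinearMap.mem_ker, unrH_apply, LinearMap.mem_range]
  refine (Cx.H.mk_eq_zero_iff_succ (C := LC.cx hY) (n := 0)).trans ?_
  constructor
  · rintro ⟨y, hy⟩
    have h1 : unrCoc hgen (a : Y) = (d₀₁ Y).hom (show Y from y) := by
      have := congrArg (fun z : ↥(LC.C₁ L Y) => (z : G → Y)) hy
      exact this.symm
    obtain ⟨hyU, hay⟩ := (unrCoc_eq_d₀₁_iff hgen hvan (a : Y) (show Y from y)).mp h1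
    exact ⟨⟨(show Y from y), hyU⟩, Subtype.ext hay.symm⟩
  · rintro ⟨y, rfl⟩
    refine ⟨(y : Y), Subtype.ext ?_⟩
    change (d₀₁ Y).hom (y : Y) = unrCoc hgen (Y.ρ φ (y : Y) - (y : Y))
    exact ((unrCoc_eq_d₀₁_iff hgen hvan _ (y : Y)).mpr ⟨y.2, rfl⟩).symm

include hgen in
/-- The kernel of `φ - 1` on `Y^U` is `Y^G`. -/
noncomputable def kerFrobEquiv :
    ↥(LinearMap.ker (frobSubOne (k := k) (Y := Y) (U := U) φ)) ≃ ↥(Y.ρ.invariants) where
  toFun a := ⟨((a : fixedSub Y U) : Y), mem_invariants_of_fixedBy hgen a.1.2 (by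
    have := a.2
    rw [LinearMap.mem_ker] at this
    have h2 := congrArg (fun z : fixedSub Y U => (z : Y)) this
    exact sub_eq_zero.mp h2)⟩
  invFun y := ⟨⟨(y : Y), FixedBy.of_mem_invariants y.2 U⟩, by
    rw [LinearMap.mem_ker]
    refine Subtype.ext ?_
    change Y.ρ φ (y : Y) - y = 0
    rw [y.2 φ, sub_self]⟩
  left_inv a := rfl
  right_inv y := rfl

/-- **Counting the unramified classes**: for finite `Y` the image of `unrH` has `|Y^G|` elements. -/
theorem card_range_unrH [Finite Y] :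
    Nat.card (LinearMap.range (unrH hY hU hgen hvan)) = Nat.card (Y.ρ.invariants) := by
  have hfin : Finite (fixedSub Y U) := Subtype.finite
  have h := card_range_eq_card_ker (unrH hY hU hgen hvan).toAddMonoidHom
    (frobSubOne (k := k) (Y := Y) (U := U) φ).toAddMonoidHom (by
      ext a
      change a ∈ LinearMap.ker (unrH hY hU hgen hvan) ↔
        a ∈ LinearMap.range (frobSubOne (k := k) (Y := Y) (U := U) φ)
      rw [ker_unrH])
  have e1 : ↥((unrH hY hU hgen hvan).toAddMonoidHom.range) ≃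
      ↥(LinearMap.range (unrH hY hU hgen hvan)) := Equiv.refl _
  have e2 : ↥((frobSubOne (k := k) (Y := Y) (U := U) φ).toAddMonoidHom.ker) ≃
      ↥(LinearMap.ker (frobSubOne (k := k) (Y := Y) (U := U) φ)) := Equiv.refl _
  rw [← Nat.card_congr e1, h, Nat.card_congr e2, Nat.card_congr (kerFrobEquiv hgen)]

/-- `H⁰(G, Y)` has `|Y^G|` elements. -/
theorem card_H0 : Nat.card ((LC.cx hY).H 0) = Nat.card (Y.ρ.invariants) :=
  Nat.card_congr (LC.h0Equiv hY).toEquiv

end

end Fermat.Agent.TW.LocQ
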