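import Mathlib
import Fermat.Agent.TW.LocQ.CyclicCocycle

/-!
# TW / LocQ (1'): a cocycle vanishing on inertia is an `unrCoc`

Situation of `CyclicCocycle.lean` (`U ⊴ G`, `φ` generating `G/U`, the norms `N_m` of `φ` vanishing
on `Y` whenever `φ^m ∈ U`).  Let `I ≤ U` act trivially on `Y` and let `N ≤ U` be a subgroup with
`G = ⟨φ⟩ I N`.  A `1`-cocycle `z` which vanishes on `I`, is right invariant under `N` and has
`z φ ∈ Y^U` is the cocycle `unrCoc (z φ)`.
-/

set_option autoImplicit false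
set_option linter.unusedSectionVars false

universe u

open CategoryTheory groupCohomology

namespace Fermat.Agent.TW.LocQ

open Fermat.Agent.CFT Fermat.Agent.CFT.Cup

variable {k G : Type u} [CommRing k] [Group G] {Y : Rep.{u} k G}

/-- A cocycle vanishing at `φ` vanishes at the powers of `φ`. -/
lemma cocycle_pow_eq_zero {z : G → Y} (hz : z ∈ cocycles₁ Y) {φ : G} (h : z φ = 0) (j : ℕ) :
    z (φ ^ j) = 0 := by
  rw [mem_cocycles₁_iff] at hz
  induction j with
  | zero =>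
    have h1 := hz 1 1
    rw [mul_one, map_one, Module.End.one_apply] at h1
    rw [pow_zero]
    exact left_eq_add.mp h1
  | succ j ih => rw [pow_succ, hz, h, map_zero, zero_add, ih]

variable {U : Subgroup G} [U.Normal] {φ : G}
  (hgen : ∀ g : G, ∃ j : ℕ, (φ ^ j)⁻¹ * g ∈ U)
  (hvan : ∀ m : ℕ, φ ^ m ∈ U → ∀ y : Y, pSum Y φ m y = 0)

include hvan in
/-- **A cocycle vanishing on inertia is an `unrCoc`.** -/
theorem eq_unrCoc_of_vanish (I N : Subgroup G) (hIU : I ≤ U) (hNU : N ≤ U)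
    (hIY : ∀ i ∈ I, ∀ y : Y, Y.ρ i y = y)
    (hgenN : ∀ g : G, ∃ (j : ℕ) (i u : G), i ∈ I ∧ u ∈ N ∧ g = φ ^ j * i * u)
    {z : G → Y} (hz : z ∈ cocycles₁ Y) (hzI : ∀ i ∈ I, z i = 0) (hzN : RightInv₁ N z)
    (hfix : FixedBy Y U (z φ)) : z = unrCoc hgen (z φ) := by
  set w : G → Y := z - unrCoc hgen (z φ) with hw
  have hwc : w ∈ cocycles₁ Y := (cocycles₁ Y).sub_mem hz (unrCoc_mem_cocycles₁ hgen hvan hfix)
  have hwφ : w φ = 0 := by
    rw [hw, Pi.sub_apply, unrCoc_self hgen hvan, sub_self]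
  have hwI : ∀ i ∈ I, w i = 0 := by
    intro i hi
    rw [hw, Pi.sub_apply, hzI i hi, unrCoc_of_mem hgen hvan _ (hIU hi), sub_self]
  have hwN : RightInv₁ N w := by
    intro g s hs
    rw [hw, Pi.sub_apply, Pi.sub_apply, hzN g s hs, rightInv_unrCoc hgen hvan _ g s (hNU hs)]
  have hw0 : w = 0 := by
    funext g
    obtain ⟨j, i, u, hi, hu, rfl⟩ := hgenN g
    rw [hwN _ u hu, (mem_cocycles₁_iff w).1 hwc, hwI i hi, map_zero, zero_add,
      cocycle_pow_eq_zero hwc hwφ]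
    rfl
  have := sub_eq_zero.mp hw0
  exact this

end Fermat.Agent.TW.LocQ
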