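import Mathlib
import Fermat.Agent.CFT.CupLowLevel
import Fermat.Agent.CFT.GaloisTowerUnits
import Fermat.Agent.CFT.Local.UnramLocal
import Fermat.Agent.CFT.LC.LowDegree

/-!
# TW / LocQ (2): inflated `2`-cocycles with torsion values are coboundaries (unramified layer)

`(O, k)` in the local SETTING, `Ω/k` Galois, `E ⊆ Ω` a finite unramified Galois subextension with
cyclic group `Gal(E/k) = ⟨φ̄⟩`, `U = Gal(Ω/E)`.  A `2`-cocycle `F` of `Gal(Ω/k)` with values in `Ωˣ`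
which is right invariant under `U` in both variables, has `U`-fixed values (so it is inflated from
`Gal(E/k)`, with values in `Eˣ`) and has torsion values (hence of valuation `0`) is the coboundary
of a `1`-cochain which is right invariant under `U`.  (The unramified `H²` is detected by the
valuation: `mem_coboundaries₂_of_ordLin_eq_zero`.)
-/

set_option autoImplicit false
set_option linter.unusedSectionVars false
set_option linter.style.haveILetI false

open CategoryTheory groupCohomology IsLocalRing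

namespace Fermat.Agent.TW.LocQ

open Fermat.Agent.CFT Fermat.Agent.CFT.Cup Fermat.Agent.CFT.GaloisTower

/-- The `Gal(Ω/k)`-module `Ωˣ` (universe-pinned abbreviation). -/
noncomputable abbrev galU (k Ω : Type) [Field k] [Field Ω] [Algebra k Ω] : Rep.{0} ℤ (Ω ≃ₐ[k] Ω) :=
  Rep.ofAlgebraAutOnUnits k Ω

section incl

variable {k Ω : Type} [Field k] [Field Ω] [Algebra k Ω] (E : IntermediateField k Ω)

/-- The inclusion `Eˣ → Ωˣ`, additively. -/
noncomputable def unitsIncl :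
    (Rep.ofAlgebraAutOnUnits k E : Rep.{0} ℤ (E ≃ₐ[k] E)) →ₗ[ℤ]
      (Rep.ofAlgebraAutOnUnits k Ω : Rep.{0} ℤ (Ω ≃ₐ[k] Ω)) :=
  (MonoidHom.toAdditive (Units.map ((algebraMap E Ω : E →+* Ω) : E →* Ω))).toIntLinearMap

lemma unitsIncl_coe (x : (Rep.ofAlgebraAutOnUnits k E : Rep.{0} ℤ (E ≃ₐ[k] E))) :
    ((Additive.toMul (unitsIncl E x) : Ωˣ) : Ω) = (((Additive.toMul x : Eˣ) : E) : Ω) := rfl

lemma unitsIncl_injective : Function.Injective (unitsIncl E) := by
  intro x y h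
  have h1 := congrArg (fun z => ((Additive.toMul z : Ωˣ) : Ω)) h
  simp only [unitsIncl_coe] at h1
  apply Additive.toMul.injective
  apply Units.ext
  exact Subtype.ext h1

/-- A unit of `Ω` lying in `E`, as an element of `Eˣ` (additively). -/
noncomputable def unitOfMem (y : (Rep.ofAlgebraAutOnUnits k Ω : Rep.{0} ℤ (Ω ≃ₐ[k] Ω)))
    (hy : ((Additive.toMul y : Ωˣ) : Ω) ∈ E) :
    (Rep.ofAlgebraAutOnUnits k E : Rep.{0} ℤ (E ≃ₐ[k] E)) :=
  Additive.ofMul (Units.mk0 (⟨((Additive.toMul y : Ωˣ) : Ω), hy⟩ : E) (fun h =>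
    (Additive.toMul y : Ωˣ).ne_zero (congrArg Subtype.val h)))

lemma unitsIncl_unitOfMem (y : (Rep.ofAlgebraAutOnUnits k Ω : Rep.{0} ℤ (Ω ≃ₐ[k] Ω)))
    (hy : ((Additive.toMul y : Ωˣ) : Ω) ∈ E) : unitsIncl E (unitOfMem E y hy) = y := by
  apply Additive.toMul.injective
  apply Units.ext
  rfl

variable [Normal k E]

/-- Equivariance of the inclusion `Eˣ → Ωˣ` along restriction `Gal(Ω/k) → Gal(E/k)`. -/
lemma unitsIncl_ρ (g : Ω ≃ₐ[k] Ω)
    (x : (Rep.ofAlgebraAutOnUnits k E : Rep.{0} ℤ (E ≃ₐ[k] E))) :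
    unitsIncl E ((Rep.ofAlgebraAutOnUnits k E).ρ (AlgEquiv.restrictNormalHom E g) x) =
      (Rep.ofAlgebraAutOnUnits k Ω).ρ g (unitsIncl E x) := by
  apply Additive.toMul.injective
  apply Units.ext
  exact AlgEquiv.restrictNormalHom_apply E g ((Additive.toMul x : Eˣ) : E)

variable [IsGalois k Ω]

/-- An element of `Ωˣ` fixed by `Gal(Ω/E)` comes from `Eˣ`. -/
lemma exists_unitsIncl_eq_of_fixedBy
    (y : (Rep.ofAlgebraAutOnUnits k Ω : Rep.{0} ℤ (Ω ≃ₐ[k] Ω)))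
    (hy : FixedBy (Rep.ofAlgebraAutOnUnits k Ω : Rep.{0} ℤ (Ω ≃ₐ[k] Ω)) E.fixingSubgroup y) :
    ∃ x : (Rep.ofAlgebraAutOnUnits k E : Rep.{0} ℤ (E ≃ₐ[k] E)), unitsIncl E x = y := by
  have hmem : ((Additive.toMul y : Ωˣ) : Ω) ∈ E := by
    rw [← forall_fixingSubgroup_apply_eq_iff E]
    intro σ hσ
    have h1 := hy σ hσ
    exact congrArg (fun z => ((Additive.toMul z : Ωˣ) : Ω)) h1
  exact ⟨unitOfMem E y hmem, unitsIncl_unitOfMem E y hmem⟩

end incl

section main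


variable (O : Type) {k Ω : Type} [CommRing O] [IsDomain O] [IsDiscreteValuationRing O]
  [IsAdicComplete (maximalIdeal O) O] [Finite (ResidueField O)]
  [Field k] [Algebra O k] [IsFractionRing O k] [CharZero k]
  [Field Ω] [Algebra k Ω] [Algebra O Ω] [IsScalarTower O k Ω] [IsGalois k Ω]
  (E : IntermediateField k Ω) [FiniteDimensional k E] [IsGalois k E]

local notation "CΩ" => galU k Ω
local notation "CE" => galU k E

/-- Torsion elements of `Eˣ` have valuation `0`. -/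
lemma ordLin_eq_zero_of_torsion (x : (Rep.ofAlgebraAutOnUnits k E : Rep.{0} ℤ (E ≃ₐ[k] E)))
    {m : ℕ} (hm : 0 < m) (hx : m • x = 0) : ordLin O k E x = 0 := by
  have h1 : m • ordLin O k E x = 0 := by rw [← map_nsmul, hx, map_zero]
  rw [nsmul_eq_mul] at h1
  rcases mul_eq_zero.mp h1 with h | h
  · exact absurd (by exact_mod_cast h) hm.ne'
  · exact h

/-- **Inflated `2`-cocycles with torsion values are coboundaries of inflated `1`-cochains.** -/
theorem exists_rightInv_primitive (hunr : IsUnramifiedExt O k E) {φb : E ≃ₐ[k] E}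
    (hgen : ∀ g : E ≃ₐ[k] E, ∃ j : ℕ, φb ^ j = g)
    (F : (Ω ≃ₐ[k] Ω) × (Ω ≃ₐ[k] Ω) → (Rep.ofAlgebraAutOnUnits k Ω : Rep.{0} ℤ (Ω ≃ₐ[k] Ω)))
    (hF : F ∈ cocycles₂ (Rep.ofAlgebraAutOnUnits k Ω : Rep.{0} ℤ (Ω ≃ₐ[k] Ω)))
    (hinv : RightInv₂ E.fixingSubgroup F)
    (hfix : ∀ p, FixedBy (Rep.ofAlgebraAutOnUnits k Ω : Rep.{0} ℤ (Ω ≃ₐ[k] Ω))
      E.fixingSubgroup (F p))
    (htors : ∀ p, ∃ m : ℕ, 0 < m ∧ m • F p = 0) :
    ∃ β : (Ω ≃ₐ[k] Ω) → (Rep.ofAlgebraAutOnUnits k Ω : Rep.{0} ℤ (Ω ≃ₐ[k] Ω)),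
      RightInv₁ E.fixingSubgroup β ∧
        (d₁₂ (Rep.ofAlgebraAutOnUnits k Ω : Rep.{0} ℤ (Ω ≃ₐ[k] Ω))).hom β = F := by
  classical
  set r : (Ω ≃ₐ[k] Ω) →* (E ≃ₐ[k] E) := AlgEquiv.restrictNormalHom E with hr
  have hsurj : Function.Surjective r := AlgEquiv.restrictNormalHom_surjective Ω
  have hker : ∀ g : Ω ≃ₐ[k] Ω, r g = 1 ↔ g ∈ E.fixingSubgroup := by
    intro g
    rw [← IntermediateField.restrictNormalHom_ker E, MonoidHom.mem_ker]
  set s : (E ≃ₐ[k] E) → (Ω ≃ₐ[k] Ω) := Function.surjInv hsurj with hs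
  have hrs : ∀ σ, r (s σ) = σ := Function.surjInv_eq hsurj
  -- elements with the same restriction differ by an element of `U`
  have hdiff : ∀ g g' : Ω ≃ₐ[k] Ω, r g = r g' → g⁻¹ * g' ∈ E.fixingSubgroup := by
    intro g g' h
    rw [← hker, map_mul, map_inv, h, inv_mul_cancel]
  -- `F` only depends on the restrictions
  have hFr : ∀ g g' h h' : Ω ≃ₐ[k] Ω, r g = r g' → r h = r h' → F (g', h') = F (g, h) := by
    intro g g' h h' hg hh
    have := hinv g h _ (hdiff g g' hg) _ (hdiff h h' hh)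
    rwa [mul_inv_cancel_left, mul_inv_cancel_left] at this
  -- the descended cocycle
  choose fb hfb using fun p : (E ≃ₐ[k] E) × (E ≃ₐ[k] E) =>
    exists_unitsIncl_eq_of_fixedBy E (F (s p.1, s p.2)) (hfix _)
  have hfb_coc : fb ∈ cocycles₂ CE := by
    rw [mem_cocycles₂_def]
    intro σ τ ρ'
    apply unitsIncl_injective E
    rw [map_zero, map_sub, map_add, map_sub, hfb (σ * τ, ρ'), hfb (σ, τ * ρ'), hfb (σ, τ)]
    have h1 : unitsIncl E ((CE).ρ σ (fb (τ, ρ'))) = (CΩ).ρ (s σ) (F (s τ, s ρ')) := by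
      have := unitsIncl_ρ E (s σ) (fb (τ, ρ'))
      rw [hfb] at this
      rw [← this]
      change unitsIncl E ((CE).ρ σ _) = unitsIncl E ((CE).ρ (r (s σ)) _)
      rw [hrs]
    rw [h1]
    have h2 : F (s (σ * τ), s ρ') = F (s σ * s τ, s ρ') :=
      hFr (s σ * s τ) (s (σ * τ)) (s ρ') (s ρ') (by rw [map_mul, hrs, hrs, hrs]) rfl
    have h3 : F (s σ, s (τ * ρ')) = F (s σ, s τ * s ρ') :=
      hFr (s σ) (s σ) (s τ * s ρ') (s (τ * ρ')) rfl (by rw [map_mul, hrs, hrs, hrs])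
    change (CΩ).ρ (s σ) (F (s τ, s ρ')) - F (s (σ * τ), s ρ') + F (s σ, s (τ * ρ')) -
      F (s σ, s τ) = 0
    rw [h2, h3]
    exact (mem_cocycles₂_def F).mp hF (s σ) (s τ) (s ρ')
  -- it has valuation zero, hence is a coboundary
  have hfb_ord : ∀ p, ordLin O k E ((⟨fb, hfb_coc⟩ : cocycles₂ CE) p) = 0 := by
    intro p
    obtain ⟨m, hm, hmF⟩ := htors (s p.1, s p.2)
    refine ordLin_eq_zero_of_torsion O E _ hm ?_
    apply unitsIncl_injective E
    rw [map_nsmul, map_zero]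
    change m • unitsIncl E (fb p) = 0
    rw [hfb]
    exact hmF
  obtain ⟨βb, hβb⟩ := mem_coboundaries₂_of_ordLin_eq_zero (O := O) hunr hgen ⟨fb, hfb_coc⟩ hfb_ord
  have hβb' : ∀ σ τ : E ≃ₐ[k] E, (CE).ρ σ (βb τ) - βb (σ * τ) + βb σ = fb (σ, τ) := by
    intro σ τ
    have := congrFun hβb (σ, τ)
    rw [d₁₂_hom_apply] at this
    exact this
  refine ⟨fun g => unitsIncl E (βb (r g)), ?_, ?_⟩
  · intro g u hu
    change unitsIncl E (βb (r (g * u))) = unitsIncl E (βb (r g))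
    rw [map_mul, (hker u).mpr hu, mul_one]
  · funext ⟨g, h⟩
    rw [d₁₂_hom_apply]
    change (CΩ).ρ g (unitsIncl E (βb (r h))) - unitsIncl E (βb (r (g * h))) +
      unitsIncl E (βb (r g)) = F (g, h)
    rw [← unitsIncl_ρ E g, map_mul, ← map_sub, ← map_add, hβb', hfb]
    exact hFr g (s (r g)) h (s (r h)) (hrs _).symm (hrs _).symm

end main

end Fermat.Agent.TW.LocQ
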