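import Mathlib
import Fermat.Agent.CFT.LC.CxPairing
import Fermat.Agent.CFT.CupLowEval
import Fermat.Agent.TW.LocQ.UnrClasses
import Fermat.Agent.TW.LocQ.UnrLift

/-!
# TW / LocQ (4'): unramified classes are orthogonal for the cup product of ANY pairing into `Ωˣ`

Same situation as `Orth.lean`, but for an arbitrary pairing `B : X' × X → Ωˣ` of smooth modules
(`X` killed by `p > 0`) instead of the evaluation pairing: the cup product (values in
`H²(Gal(Ω/k), Ωˣ)`) of an unramified class of `X'` with an unramified class of `X` vanishes.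
-/

set_option autoImplicit false
set_option linter.unusedSectionVars false
set_option linter.style.haveILetI false

open CategoryTheory groupCohomology IsLocalRing

namespace Fermat.Agent.TW.LocQ

open Fermat.Agent.CFT Fermat.Agent.CFT.Cup Fermat.Agent.CFT.HExt

variable (O : Type) {k Ω : Type} [CommRing O] [IsDomain O] [IsDiscreteValuationRing O]
  [IsAdicComplete (maximalIdeal O) O] [Finite (ResidueField O)]
  [Field k] [Algebra O k] [IsFractionRing O k] [CharZero k]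
  [Field Ω] [Algebra k Ω] [Algebra O Ω] [IsScalarTower O k Ω] [IsGalois k Ω]
  (E : IntermediateField k Ω) [FiniteDimensional k E] [IsGalois k E]
  {L : LevelStructure (Ω ≃ₐ[k] Ω)} (hC : IsSmooth L (galU k Ω))
  {X X' : Rep.{0} ℤ (Ω ≃ₐ[k] Ω)} (B : RepPairing X' X (galU k Ω))
  (hX : IsSmooth L X) (hX' : IsSmooth L X')
  (hU : L.IsOpen E.fixingSubgroup) {φ : Ω ≃ₐ[k] Ω}
  (hgen : ∀ g : Ω ≃ₐ[k] Ω, ∃ j : ℕ, (φ ^ j)⁻¹ * g ∈ E.fixingSubgroup)
  (hvanX : ∀ m : ℕ, φ ^ m ∈ E.fixingSubgroup → ∀ y : X, pSum X φ m y = 0)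
  (hvanX' : ∀ m : ℕ, φ ^ m ∈ E.fixingSubgroup → ∀ y : X', pSum X' φ m y = 0)

/-- **Unramified classes are orthogonal**, for an arbitrary pairing into `Ωˣ`. -/
theorem cupH_unrH_unrH_of_pairing (hunr : IsUnramifiedExt O k E) {φb : E ≃ₐ[k] E}
    (hgenb : ∀ g : E ≃ₐ[k] E, ∃ j : ℕ, φb ^ j = g) {p : ℕ} (hp : 0 < p)
    (hpX : ∀ x : X, p • x = 0)
    (b : fixedSub X' E.fixingSubgroup) (a : fixedSub X E.fixingSubgroup) :
    (LC.cxPairing B hX' hX hC).cupH 1 1 2 rfl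
      (unrH hX' hU hgen hvanX' b) (unrH hX hU hgen hvanX a) = 0 := by
  rw [unrH_apply, unrH_apply]
  refine (Cx.Pairing.cupH_mk (LC.cxPairing B hX' hX hC) 1 1 2 rfl _ _ _ _).trans ?_
  refine (Cx.H.mk_eq_zero_iff_succ (C := LC.cx hC) (n := 1)).2 ?_
  set F : (Ω ≃ₐ[k] Ω) × (Ω ≃ₐ[k] Ω) → galU k Ω :=
    B.cup₁₁ (unrCoc hgen (b : X')) (unrCoc hgen (a : X)) with hF
  have hcoc : F ∈ cocycles₂ (galU k Ω) :=
    RepPairing.cup₁₁_mem_cocycles₂ _ (unrCoc_mem_cocycles₁ hgen hvanX' b.2)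
      (unrCoc_mem_cocycles₁ hgen hvanX a.2)
  have hinv : RightInv₂ E.fixingSubgroup F :=
    RepPairing.rightInv₂_cup₁₁ _ (rightInv_unrCoc hgen hvanX' _) (rightInv_unrCoc hgen hvanX _)
      (fun h => fixedBy_unrCoc hgen a.2 h)
  have hfix : ∀ q, FixedBy (galU k Ω) E.fixingSubgroup (F q) := by
    intro q
    rw [hF, RepPairing.cup₁₁_apply]
    exact RepPairing.fixedBy_toLin _ (fixedBy_unrCoc hgen b.2 _)
      (FixedBy.ρ (fixedBy_unrCoc hgen a.2 _) _)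
  have htors : ∀ q, ∃ m : ℕ, 0 < m ∧ m • F q = 0 := by
    intro q
    refine ⟨p, hp, ?_⟩
    rw [hF, RepPairing.cup₁₁_apply, ← map_nsmul, hpX, map_zero]
  obtain ⟨β, hβinv, hβ⟩ := exists_rightInv_primitive O E hunr hgenb F hcoc hinv hfix htors
  have hβLC : L.IsLC₁ β := by
    obtain ⟨N, hN, hNU⟩ := hU
    exact ⟨N, hN, fun g s hs => hβinv g s (hNU hs)⟩
  refine ⟨(⟨β, hβLC⟩ : ↥(LC.C₁ L (galU k Ω))), ?_⟩
  refine Subtype.ext ?_
  change (d₁₂ (galU k Ω)).hom β = _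
  rw [hβ]
  rfl

end Fermat.Agent.TW.LocQ
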